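/-
S55 engine E1, block ALG, leaf ALG3 (helper354).
Blueprint: coord/S55-E1.md §3.  Mathlib + E1/Defs only.

For a `k`-projective representation `R` and a short exact sequence `0 → X' → X → X'' → 0` of
representations we construct the boundary map `∂ : Hom_G(R, X'') → H¹(G, Hom_k(R, X'))` by the
explicit cocycle formula and prove exactness of
`Hom_G(R, X) → Hom_G(R, X'') → H¹(G, Hom_k(R, X')) → H¹(G, Hom_k(R, X))`.
-/
import Fermat.Agent.S55.E1.Defs

set_option autoImplicit false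

open CategoryTheory CategoryTheory.Limits groupCohomology

namespace Fermat.Agent.S55.E1.H354

noncomputable section

variable {k G : Type} [CommRing k] [Group G]

/-- An element of `Hom_k(R, X)` (the underlying module of `ihom R X`) as a linear map. -/
abbrev ihomLin {R X : Rep.{0} k G} (x : ((Rep.ihom R).obj X).V) : R.V →ₗ[k] X.V := x

/-- A linear map as an element of the underlying module of `ihom R X`. -/
abbrev ihomMk {R X : Rep.{0} k G} (x : R.V →ₗ[k] X.V) : ((Rep.ihom R).obj X).V := x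

theorem ihom_ρ_apply {R X : Rep.{0} k G} (g : G) (x : ((Rep.ihom R).obj X).V) (r : R.V) :
    ihomLin (((Rep.ihom R).obj X).ρ g x) r = X.ρ g (ihomLin x (R.ρ g⁻¹ r)) := rfl

/-- `c` is a boundary cocycle of `f'' : R ⟶ X''`: there is a `k`-linear lift `φ : R → X` of `f''`
with `f ∘ c g = g • φ - φ`, i.e. `f (c g r) = g φ(g⁻¹ r) - φ r`. -/
def IsBdryCocycle (R : Rep.{0} k G) (S : ShortComplex (Rep.{0} k G)) (f'' : R ⟶ S.X₃)
    (c : cocycles₁ ((Rep.ihom R).obj S.X₁)) : Prop :=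
  ∃ φ : R.V →ₗ[k] S.X₂.V, (∀ r, S.g.hom (φ r) = f''.hom r) ∧
    ∀ (g : G) (r : R.V), S.f.hom (ihomLin (c g) r) = S.X₂.ρ g (φ (R.ρ g⁻¹ r)) - φ r

section basic

variable {S : ShortComplex (Rep.{0} k G)} (hS : S.ShortExact)
include hS

theorem f_injective : Function.Injective S.f.hom :=
  (Rep.mono_iff_injective S.f).1 hS.mono_f

theorem g_surjective : Function.Surjective S.g.hom :=
  (Rep.epi_iff_surjective S.g).1 hS.epi_g

theorem range_f_eq_ker_g :
    LinearMap.range S.f.hom.toLinearMap = LinearMap.ker S.g.hom.toLinearMap :=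
  (hS.exact.map (forget₂ (Rep k G) (ModuleCat k))).moduleCat_range_eq_ker

theorem exists_of_g_eq_zero (x : S.X₂.V) (hx : S.g.hom x = 0) : ∃ y : S.X₁.V, S.f.hom y = x := by
  have : x ∈ LinearMap.ker S.g.hom.toLinearMap := hx
  rw [← range_f_eq_ker_g hS] at this
  exact this

theorem g_f (y : S.X₁.V) : S.g.hom (S.f.hom y) = 0 := by
  have : S.f.hom y ∈ LinearMap.range S.f.hom.toLinearMap := ⟨y, rfl⟩
  rw [range_f_eq_ker_g hS] at this
  exact this

end basic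


/-- Factor a linear map through an injective linear map, elementwise. -/
theorem exists_linearMap_factor {M N P : Type} [AddCommGroup M] [AddCommGroup N] [AddCommGroup P]
    [Module k M] [Module k N] [Module k P] (f : N →ₗ[k] P) (hf : Function.Injective f)
    (ψ : M →ₗ[k] P) (h : ∀ m, ∃ n, f n = ψ m) : ∃ c : M →ₗ[k] N, ∀ m, f (c m) = ψ m := by
  have hr : ∀ m, ψ m ∈ LinearMap.range f := fun m => h m
  refine ⟨((LinearEquiv.ofInjective f hf).symm : LinearMap.range f →ₗ[k] N) ∘ₗ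
    ψ.codRestrict (LinearMap.range f) hr, fun m => ?_⟩
  have := (LinearEquiv.ofInjective f hf).apply_symm_apply (ψ.codRestrict (LinearMap.range f) hr m)
  exact congrArg Subtype.val this

section bdry

variable {R : Rep.{0} k G} {S : ShortComplex (Rep.{0} k G)}

/-- The cocycle attached to a `k`-linear lift `φ` of `f''`. -/
theorem exists_cocycle_of_lift (hS : S.ShortExact) (f'' : R ⟶ S.X₃) (φ : R.V →ₗ[k] S.X₂.V)
    (hφ : ∀ r, S.g.hom (φ r) = f''.hom r) :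
    ∃ c : cocycles₁ ((Rep.ihom R).obj S.X₁),
      ∀ (g : G) (r : R.V), S.f.hom (ihomLin (c g) r) = S.X₂.ρ g (φ (R.ρ g⁻¹ r)) - φ r := by
  have hinj := f_injective hS
  have key : ∀ g : G, ∃ c : R.V →ₗ[k] S.X₁.V,
      ∀ r, S.f.hom.toLinearMap (c r) = (S.X₂.ρ g ∘ₗ φ ∘ₗ R.ρ g⁻¹ - φ) r := by
    intro g
    refine exists_linearMap_factor S.f.hom.toLinearMap hinj _ fun r => ?_
    refine exists_of_g_eq_zero hS _ ?_
    simp only [LinearMap.sub_apply, LinearMap.comp_apply, map_sub, hφ]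
    rw [Rep.hom_comm_apply, hφ, ← Rep.hom_comm_apply, ← Module.End.mul_apply, ← map_mul]
    simp
  choose c hc using key
  refine ⟨⟨fun g => ihomMk (c g), ?_⟩, fun g r => hc g r⟩
  rw [mem_cocycles₁_iff]
  intro g h
  apply LinearMap.ext
  intro r
  apply hinj
  show S.f.hom.toLinearMap (c (g * h) r) = S.f.hom
    ((ihomLin (((Rep.ihom R).obj S.X₁).ρ g (ihomMk (c h))) + c g) r)
  rw [hc, LinearMap.add_apply, map_add, ihom_ρ_apply, Rep.hom_comm_apply]
  show _ = S.X₂.ρ g (S.f.hom.toLinearMap (c h (R.ρ g⁻¹ r))) + S.f.hom.toLinearMap (c g r)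
  rw [hc, hc]
  simp only [LinearMap.sub_apply, LinearMap.comp_apply, map_sub, mul_inv_rev, map_mul,
    Module.End.mul_apply]
  abel

theorem exists_isBdryCocycle (hS : S.ShortExact) [Module.Projective k R.V] (f'' : R ⟶ S.X₃) :
    ∃ c, IsBdryCocycle R S f'' c := by
  obtain ⟨φ, hφ⟩ := Module.projective_lifting_property S.g.hom.toLinearMap f''.hom.toLinearMap
    (g_surjective hS)
  have hφ' : ∀ r, S.g.hom (φ r) = f''.hom r := fun r => LinearMap.congr_fun hφ r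
  obtain ⟨c, hc⟩ := exists_cocycle_of_lift hS f'' φ hφ'
  exact ⟨c, φ, hφ', hc⟩


/-- Two boundary cocycles of the same morphism are cohomologous. -/
theorem H1π_eq_of_isBdryCocycle (hS : S.ShortExact) {f'' : R ⟶ S.X₃}
    {c₁ c₂ : cocycles₁ ((Rep.ihom R).obj S.X₁)} (h₁ : IsBdryCocycle R S f'' c₁)
    (h₂ : IsBdryCocycle R S f'' c₂) :
    H1π ((Rep.ihom R).obj S.X₁) c₁ = H1π ((Rep.ihom R).obj S.X₁) c₂ := by
  have hinj := f_injective hS
  obtain ⟨φ₁, hφ₁, hc₁⟩ := h₁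
  obtain ⟨φ₂, hφ₂, hc₂⟩ := h₂
  obtain ⟨ψ, hψ⟩ := exists_linearMap_factor S.f.hom.toLinearMap hinj (φ₁ - φ₂) fun r =>
    exists_of_g_eq_zero hS _ (by simp [hφ₁, hφ₂])
  rw [H1π_eq_iff]
  refine ⟨ihomMk ψ, ?_⟩
  funext g
  apply LinearMap.ext
  intro r
  apply hinj
  show S.f.hom ((ihomLin (((Rep.ihom R).obj S.X₁).ρ g (ihomMk ψ)) - ψ) r) =
    S.f.hom ((ihomLin (c₁ g) - ihomLin (c₂ g)) r)
  rw [LinearMap.sub_apply, LinearMap.sub_apply, map_sub, map_sub, hc₁, hc₂, ihom_ρ_apply,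
    Rep.hom_comm_apply]
  have h1 := hψ r
  have h2 := hψ (R.ρ g⁻¹ r)
  simp only [LinearMap.sub_apply] at h1 h2
  show S.X₂.ρ g (S.f.hom.toLinearMap (ψ (R.ρ g⁻¹ r))) - S.f.hom.toLinearMap (ψ r) = _
  rw [h1, h2, map_sub]
  abel

open Classical in
/-- The boundary map `∂ : Hom_G(R, X'') → H¹(G, Hom_k(R, X'))` as a function: the class of any
boundary cocycle (`0` if there is none, which does not happen for `k`-projective `R`). -/
def bdryFun (R : Rep.{0} k G) (S : ShortComplex (Rep.{0} k G)) (f'' : R ⟶ S.X₃) :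
    H1 ((Rep.ihom R).obj S.X₁) :=
  if h : ∃ c, IsBdryCocycle R S f'' c then H1π ((Rep.ihom R).obj S.X₁) h.choose else 0

/-- **Explicit formula for `∂`.** -/
theorem bdryFun_eq (hS : S.ShortExact) {f'' : R ⟶ S.X₃}
    {c : cocycles₁ ((Rep.ihom R).obj S.X₁)} (hc : IsBdryCocycle R S f'' c) :
    bdryFun R S f'' = H1π ((Rep.ihom R).obj S.X₁) c := by
  have h : ∃ c, IsBdryCocycle R S f'' c := ⟨c, hc⟩
  rw [bdryFun, dif_pos h]
  exact H1π_eq_of_isBdryCocycle hS h.choose_spec hc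

theorem isBdryCocycle_add {f₁ f₂ : R ⟶ S.X₃} {c₁ c₂ : cocycles₁ ((Rep.ihom R).obj S.X₁)}
    (h₁ : IsBdryCocycle R S f₁ c₁) (h₂ : IsBdryCocycle R S f₂ c₂) :
    IsBdryCocycle R S (f₁ + f₂) (c₁ + c₂) := by
  obtain ⟨φ₁, hφ₁, hc₁⟩ := h₁
  obtain ⟨φ₂, hφ₂, hc₂⟩ := h₂
  refine ⟨φ₁ + φ₂, fun r => ?_, fun g r => ?_⟩
  · simp [hφ₁, hφ₂, Rep.add_hom]
  · show S.f.hom ((ihomLin (c₁ g) + ihomLin (c₂ g)) r) = _
    rw [LinearMap.add_apply, map_add, hc₁, hc₂]
    simp only [LinearMap.add_apply, map_add]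
    abel

theorem isBdryCocycle_zero : IsBdryCocycle R S (0 : R ⟶ S.X₃) 0 :=
  ⟨0, fun r => by simp, fun g r => by
    show S.f.hom ((0 : R.V →ₗ[k] S.X₁.V) r) = _
    simp⟩

/-- The boundary map `∂ : Hom_G(R, X'') →+ H¹(G, Hom_k(R, X'))`. -/
def bdry (hS : S.ShortExact) (R : Rep.{0} k G) [Module.Projective k R.V] :
    (R ⟶ S.X₃) →+ H1 ((Rep.ihom R).obj S.X₁) where
  toFun := bdryFun R S
  map_zero' := by
    rw [bdryFun_eq hS isBdryCocycle_zero, map_zero]
  map_add' f₁ f₂ := by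
    obtain ⟨c₁, h₁⟩ := exists_isBdryCocycle hS f₁
    obtain ⟨c₂, h₂⟩ := exists_isBdryCocycle hS f₂
    rw [bdryFun_eq hS h₁, bdryFun_eq hS h₂, bdryFun_eq hS (isBdryCocycle_add h₁ h₂), map_add]

theorem bdry_apply (hS : S.ShortExact) [Module.Projective k R.V] (f'' : R ⟶ S.X₃) :
    bdry hS R f'' = bdryFun R S f'' := rfl

/-- **Explicit formula for `∂`**: `∂ f''` is the class of `g ↦ f⁻¹ ∘ (g • φ - φ)` for ANY
`k`-linear lift `φ` of `f''`. -/
theorem bdry_eq (hS : S.ShortExact) [Module.Projective k R.V] {f'' : R ⟶ S.X₃}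
    {c : cocycles₁ ((Rep.ihom R).obj S.X₁)} (hc : IsBdryCocycle R S f'' c) :
    bdry hS R f'' = H1π ((Rep.ihom R).obj S.X₁) c :=
  bdryFun_eq hS hc


/-- A `G`-equivariant lift gives the zero boundary cocycle. -/
theorem isBdryCocycle_zero_of_lift (f : R ⟶ S.X₂) : IsBdryCocycle R S (f ≫ S.g) 0 := by
  refine ⟨f.hom.toLinearMap, fun r => rfl, fun g r => ?_⟩
  show S.f.hom ((0 : R.V →ₗ[k] S.X₁.V) r) = S.X₂.ρ g (f.hom (R.ρ g⁻¹ r)) - f.hom r
  rw [← Rep.hom_comm_apply, ← Module.End.mul_apply, ← map_mul]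
  simp

/-- **Exactness at `Hom_G(R, X'')`**: `∂ f'' = 0` iff `f''` lifts to a `G`-map `R → X`. -/
theorem bdry_eq_zero_iff (hS : S.ShortExact) [Module.Projective k R.V] (f'' : R ⟶ S.X₃) :
    bdry hS R f'' = 0 ↔ ∃ f : R ⟶ S.X₂, f ≫ S.g = f'' := by
  constructor
  · intro h0
    obtain ⟨c, hc⟩ := exists_isBdryCocycle hS f''
    rw [bdry_eq hS hc, H1π_eq_zero_iff] at h0
    obtain ⟨φ, hφ, hcφ⟩ := hc
    obtain ⟨ψ, hψ⟩ := h0
    have hψ' : ∀ (g : G) (r : R.V),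
        S.X₁.ρ g (ihomLin ψ (R.ρ g⁻¹ r)) - ihomLin ψ r = ihomLin (c g) r := by
      intro g r
      have := congrFun hψ g
      rw [d₀₁_hom_apply] at this
      have h2 := congrArg (fun x => ihomLin x r) this
      exact h2
    let φ' : R.V →ₗ[k] S.X₂.V := φ - S.f.hom.toLinearMap ∘ₗ ihomLin ψ
    have hinv : ∀ (g : G) (r : R.V), S.X₂.ρ g (φ' (R.ρ g⁻¹ r)) = φ' r := by
      intro g r
      have h1 := hcφ g r
      rw [← hψ' g r, map_sub, Rep.hom_comm_apply] at h1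
      simp only [φ', LinearMap.sub_apply, LinearMap.comp_apply, map_sub]
      simp only [Representation.IntertwiningMap.toLinearMap_apply]
      rw [← sub_eq_zero] at h1 ⊢
      rw [← neg_eq_zero, ← h1]
      abel
    have heq : ∀ (g : G) (r : R.V), φ' (R.ρ g r) = S.X₂.ρ g (φ' r) := by
      intro g r
      rw [← hinv g (R.ρ g r), ← Module.End.mul_apply, ← map_mul]
      simp
    refine ⟨Rep.ofHom (LinearMap.intertwiningMap_of_isIntertwiningMap R.ρ S.X₂.ρ φ' heq), ?_⟩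
    apply Rep.hom_ext
    apply Representation.IntertwiningMap.ext
    apply LinearMap.ext
    intro r
    show S.g.hom (φ' r) = f''.hom r
    simp only [φ', LinearMap.sub_apply, LinearMap.comp_apply, map_sub, hφ]
    rw [Representation.IntertwiningMap.toLinearMap_apply, g_f hS, sub_zero]
  · rintro ⟨f, rfl⟩
    rw [bdry_eq hS (isBdryCocycle_zero_of_lift f), map_zero]

/-- The map `H¹(G, Hom_k(R, X)) → H¹(G, Hom_k(R, Y))` induced by `u : X ⟶ Y`. -/
abbrev ihomH1Map (R : Rep.{0} k G) {X Y : Rep.{0} k G} (u : X ⟶ Y) :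
    H1 ((Rep.ihom R).obj X) ⟶ H1 ((Rep.ihom R).obj Y) :=
  groupCohomology.map (MonoidHom.id G) ((Rep.ihom R).map u) 1

theorem ihomH1Map_H1π (R : Rep.{0} k G) {X Y : Rep.{0} k G} (u : X ⟶ Y)
    (c : cocycles₁ ((Rep.ihom R).obj X)) :
    (ihomH1Map R u).hom (H1π _ c) =
      H1π _ (mapCocycles₁ (MonoidHom.id G) ((Rep.ihom R).map u) c) := by
  have h := H1π_comp_map_apply (MonoidHom.id G) ((Rep.ihom R).map u) c
  exact h

theorem mapCocycles₁_ihom_apply (R : Rep.{0} k G) {X Y : Rep.{0} k G} (u : X ⟶ Y)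
    (c : cocycles₁ ((Rep.ihom R).obj X)) (g : G) (r : R.V) :
    ihomLin (mapCocycles₁ (MonoidHom.id G) ((Rep.ihom R).map u) c g) r =
      u.hom (ihomLin (c g) r) := rfl

/-- **Exactness at `H¹(G, Hom_k(R, X'))`**: `y ↦ 0` in `H¹(G, Hom_k(R, X))` iff `y = ∂ f''`. -/
theorem ihomH1Map_eq_zero_iff (hS : S.ShortExact) [Module.Projective k R.V]
    (y : H1 ((Rep.ihom R).obj S.X₁)) :
    (ihomH1Map R S.f).hom y = 0 ↔ ∃ f'' : R ⟶ S.X₃, bdry hS R f'' = y := by
  constructor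
  · induction y using H1_induction_on with
    | h c =>
      intro h0
      rw [ihomH1Map_H1π, H1π_eq_zero_iff] at h0
      obtain ⟨φ, hφ⟩ := h0
      have hφ' : ∀ (g : G) (r : R.V),
          S.X₂.ρ g (ihomLin φ (R.ρ g⁻¹ r)) - ihomLin φ r = S.f.hom (ihomLin (c g) r) := by
        intro g r
        have := congrFun hφ g
        rw [d₀₁_hom_apply] at this
        exact congrArg (fun x => ihomLin x r) this
      let φ'' : R.V →ₗ[k] S.X₃.V := S.g.hom.toLinearMap ∘ₗ ihomLin φ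
      have hinv : ∀ (g : G) (r : R.V), S.X₃.ρ g (φ'' (R.ρ g⁻¹ r)) = φ'' r := by
        intro g r
        have h1 := congrArg S.g.hom (hφ' g r)
        rw [g_f hS, map_sub, sub_eq_zero, Rep.hom_comm_apply] at h1
        exact h1
      have heq : ∀ (g : G) (r : R.V), φ'' (R.ρ g r) = S.X₃.ρ g (φ'' r) := by
        intro g r
        rw [← hinv g (R.ρ g r), ← Module.End.mul_apply, ← map_mul]
        simp
      refine ⟨Rep.ofHom (LinearMap.intertwiningMap_of_isIntertwiningMap R.ρ S.X₃.ρ φ'' heq), ?_⟩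
      refine bdry_eq hS ⟨ihomLin φ, fun r => rfl, fun g r => (hφ' g r).symm⟩
  · rintro ⟨f'', rfl⟩
    obtain ⟨c, hc⟩ := exists_isBdryCocycle hS f''
    rw [bdry_eq hS hc, ihomH1Map_H1π, H1π_eq_zero_iff]
    obtain ⟨φ, hφ, hcφ⟩ := hc
    refine ⟨ihomMk φ, ?_⟩
    funext g
    rw [d₀₁_hom_apply]
    apply LinearMap.ext
    intro r
    exact (hcφ g r).symm


/-- `ker ∂ = im(Hom_G(R, X) → Hom_G(R, X''))`. -/
theorem ker_bdry (hS : S.ShortExact) [Module.Projective k R.V] :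
    (bdry hS R).ker = (Preadditive.rightComp R S.g).range := by
  ext f''
  rw [AddMonoidHom.mem_ker, bdry_eq_zero_iff, AddMonoidHom.mem_range]
  rfl

/-- `im ∂ = ker(H¹(G, Hom_k(R, X')) → H¹(G, Hom_k(R, X)))`. -/
theorem range_bdry (hS : S.ShortExact) [Module.Projective k R.V] :
    (bdry hS R).range = (ihomH1Map R S.f).hom.toAddMonoidHom.ker := by
  ext y
  rw [AddMonoidHom.mem_range, AddMonoidHom.mem_ker]
  exact (ihomH1Map_eq_zero_iff hS y).symm

/-- **ALG3, final form**: `Hom_G(R, X'') / im Hom_G(R, X) ≃ ker(H¹(Hom(R, X')) → H¹(Hom(R, X)))`,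
induced by `∂`. -/
def bdryEquiv (hS : S.ShortExact) (R : Rep.{0} k G) [Module.Projective k R.V] :
    ((R ⟶ S.X₃) ⧸ (Preadditive.rightComp R S.g).range) ≃+
      (ihomH1Map R S.f).hom.toAddMonoidHom.ker :=
  (QuotientAddGroup.quotientAddEquivOfEq (ker_bdry hS).symm).trans <|
    (QuotientAddGroup.quotientKerEquivRange (bdry hS R)).trans <|
      AddEquiv.addSubgroupCongr (range_bdry hS)

theorem bdryEquiv_mk (hS : S.ShortExact) [Module.Projective k R.V] (f'' : R ⟶ S.X₃) :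
    ((bdryEquiv hS R (QuotientAddGroup.mk f'') : (ihomH1Map R S.f).hom.toAddMonoidHom.ker) :
      H1 ((Rep.ihom R).obj S.X₁)) = bdry hS R f'' := rfl

end bdry

/-! ### Free representations: `Hom_G(k[G]^{(α)}, X) → Hom_G(k[G]^{(α)}, X'')` is onto -/

theorem free_hom_surjective {S : ShortComplex (Rep.{0} k G)} (hS : S.ShortExact) (α : Type)
    (h'' : Rep.free k G α ⟶ S.X₃) : ∃ h : Rep.free k G α ⟶ S.X₂, h ≫ S.g = h'' := by
  have hsurj := g_surjective hS
  choose x hx using fun a : α => hsurj (h''.hom (Finsupp.single a (.single 1 1)))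
  refine ⟨Rep.freeLift k G S.X₂ x, Rep.free_ext k G S.X₃ _ _ fun i => ?_⟩
  rw [← hx i]
  show S.g.hom (Representation.freeLift S.X₂.ρ x (Finsupp.single i (.single 1 1))) = _
  rw [Representation.freeLift_single_single]
  simp


/-! ### ALG3 for the standard presentation `0 → R → P → N → 0` (`k = ℤ`) -/

section std

variable {G : Type} [Group G]

/-- `Bc(X) → Bc(X'')` is onto. -/
theorem homB_surjective (N : Rep.{0} ℤ G) {S : ShortComplex (Rep.{0} ℤ G)} (hS : S.ShortExact)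
    (h'' : homB N S.X₃) : ∃ h : homB N S.X₂, h ≫ S.g = h'' :=
  free_hom_surjective hS N.V h''

/-- The boundary map `∂ : A(X'') → 𝔈²(X')` of ALG3 for the standard presentation. -/
def stdBdry (N : Rep.{0} ℤ G) (hR : @Module.Projective ℤ _ (stdR N).V _ (stdR N).hV2)
    {S : ShortComplex (Rep.{0} ℤ G)} (hS : S.ShortExact) : homA N S.X₃ →+ E2 N S.X₁ :=
  haveI := hR
  bdry hS (stdR N)

variable (N : Rep.{0} ℤ G) (hR : @Module.Projective ℤ _ (stdR N).V _ (stdR N).hV2)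
  {S : ShortComplex (Rep.{0} ℤ G)} (hS : S.ShortExact)
include hR hS

/-- Explicit formula: `∂ f''` is the class of the cocycle `g ↦ f⁻¹ ∘ (g • φ - φ)` for any additive
lift `φ : R → X` of `f''`. -/
theorem stdBdry_eq {f'' : homA N S.X₃} {c : cocycles₁ ((Rep.ihom (stdR N)).obj S.X₁)}
    (hc : IsBdryCocycle (stdR N) S f'' c) : stdBdry N hR hS f'' = H1π _ c :=
  haveI := hR
  bdry_eq hS hc

theorem exists_isBdryCocycle_std (f'' : homA N S.X₃) :
    ∃ c, IsBdryCocycle (stdR N) S f'' c :=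
  haveI := hR
  exists_isBdryCocycle hS f''

/-- Exactness at `A(X'')`. -/
theorem stdBdry_eq_zero_iff (f'' : homA N S.X₃) :
    stdBdry N hR hS f'' = 0 ↔ ∃ f : homA N S.X₂, f ≫ S.g = f'' :=
  haveI := hR
  bdry_eq_zero_iff hS f''

/-- Exactness at `𝔈²(X')`. -/
theorem E2map_eq_zero_iff (y : E2 N S.X₁) :
    (T.coeffMap ((Rep.ihom (stdR N)).map S.f) 1).hom y = 0 ↔
      ∃ f'' : homA N S.X₃, stdBdry N hR hS f'' = y :=
  haveI := hR
  ihomH1Map_eq_zero_iff hS y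

/-- `∂ ∘ res = 0`. -/
theorem stdBdry_resBA (h'' : homB N S.X₃) : stdBdry N hR hS (resBA N S.X₃ h'') = 0 := by
  obtain ⟨h, rfl⟩ := homB_surjective N hS h''
  rw [stdBdry_eq_zero_iff]
  exact ⟨stdι N ≫ h, by simp [resBA]⟩

/-- `A(X'') / im A(X) ≃ ker(𝔈²(X') → 𝔈²(X))`, induced by `∂`. -/
def stdBdryEquiv : (homA N S.X₃ ⧸ (Preadditive.rightComp (stdR N) S.g).range) ≃+
    (ihomH1Map (stdR N) S.f).hom.toAddMonoidHom.ker :=
  haveI := hR
  bdryEquiv hS (stdR N)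

theorem stdBdryEquiv_mk (f'' : homA N S.X₃) :
    ((stdBdryEquiv N hR hS (QuotientAddGroup.mk f'') :
      (ihomH1Map (stdR N) S.f).hom.toAddMonoidHom.ker) : E2 N S.X₁) = stdBdry N hR hS f'' := rfl

end std

/-- **ALG3** (blueprint coord/S55-E1.md §3), Spec form. -/
def ALG3Spec : Prop :=
  ∀ (G : Type) [Group G] (N : Rep.{0} ℤ G), @Module.Projective ℤ _ (stdR N).V _ (stdR N).hV2 →
  ∀ (S : ShortComplex (Rep.{0} ℤ G)), S.ShortExact →
    (∀ h'' : homB N S.X₃, ∃ h : homB N S.X₂, h ≫ S.g = h'') ∧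
    ∃ d : homA N S.X₃ →+ E2 N S.X₁,
      (∀ (f'' : homA N S.X₃) (c : cocycles₁ ((Rep.ihom (stdR N)).obj S.X₁)),
          IsBdryCocycle (stdR N) S f'' c → d f'' = H1π _ c) ∧
      (∀ f'' : homA N S.X₃, d f'' = 0 ↔ ∃ f : homA N S.X₂, f ≫ S.g = f'') ∧
      (∀ y : E2 N S.X₁, (T.coeffMap ((Rep.ihom (stdR N)).map S.f) 1).hom y = 0 ↔
          ∃ f'' : homA N S.X₃, d f'' = y) ∧
      (∀ h'' : homB N S.X₃, d (resBA N S.X₃ h'') = 0)

theorem alg3 : ALG3Spec := fun _ _ N hR _ hS =>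
  ⟨homB_surjective N hS, stdBdry N hR hS, fun _ _ hc => stdBdry_eq N hR hS hc,
    stdBdry_eq_zero_iff N hR hS, E2map_eq_zero_iff N hR hS, stdBdry_resBA N hR hS⟩

end

end Fermat.Agent.S55.E1.H354
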