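/-
S55 engine E1, block ALG: the transition maps commute with the boundary map `∂` of ALG3
("ALG10-∂", blueprint coord/S55-E1.md §3 ALG10, used by LIM1).  helper354.

Generic form: `π : G' →* G`, `a : R' ⟶ res_π R`, a morphism `(ι₁, ι₂, ι₃)` from `res_π` of a
short exact sequence `S` of `G`-modules to a short exact sequence `S'` of `G'`-modules.  Then
`tr (∂ f'') = ∂' (ι₃ ∘ f'' ∘ a)`, where `tr = (trIhom π a ι₁)_*` on `H¹`.
Special cases: transitions of the tower, restriction to a subgroup (`π = D.subtype`, `a = 𝟙`),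
naturality in the short exact sequence (`π = id`).
-/
import Fermat.Agent.S55.E1.H354.Alg3
import Fermat.Agent.S55.E1.Tr.Defs

set_option autoImplicit false

open CategoryTheory CategoryTheory.Limits groupCohomology

namespace Fermat.Agent.S55.E1.H354

noncomputable section

section generic

variable {k G G' : Type} [CommRing k] [Group G] [Group G'] (π : G' →* G)
variable {R : Rep.{0} k G} {R' : Rep.{0} k G'} (a : R' ⟶ Rep.res π R)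
variable {S : ShortComplex (Rep.{0} k G)} {S' : ShortComplex (Rep.{0} k G')}
variable (ι₁ : Rep.res π S.X₁ ⟶ S'.X₁) (ι₂ : Rep.res π S.X₂ ⟶ S'.X₂)
  (ι₃ : Rep.res π S.X₃ ⟶ S'.X₃)

/-- The transported morphism `ι₃ ∘ f'' ∘ a : R' ⟶ X₃'`. -/
def trHom (f'' : R ⟶ S.X₃) : R' ⟶ S'.X₃ := a ≫ (Rep.resFunctor π).map f'' ≫ ι₃

theorem trHom_hom_apply (f'' : R ⟶ S.X₃) (r : R'.V) :
    (trHom π a ι₃ f'').hom r = ι₃.hom (f''.hom (a.hom r)) := rfl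

theorem mapCocycles₁_trIhom_apply (c : cocycles₁ ((Rep.ihom R).obj S.X₁)) (g' : G') (r : R'.V) :
    ihomLin (mapCocycles₁ π (trIhom π a ι₁) c g') r = ι₁.hom (ihomLin (c (π g')) (a.hom r)) :=
  rfl

/-- The transported cocycle is a boundary cocycle of the transported morphism. -/
theorem IsBdryCocycle.tr (hf : ∀ x : S.X₁.V, S'.f.hom (ι₁.hom x) = ι₂.hom (S.f.hom x))
    (hg : ∀ x : S.X₂.V, S'.g.hom (ι₂.hom x) = ι₃.hom (S.g.hom x))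
    {f'' : R ⟶ S.X₃} {c : cocycles₁ ((Rep.ihom R).obj S.X₁)} (hc : IsBdryCocycle R S f'' c) :
    IsBdryCocycle R' S' (trHom π a ι₃ f'') (mapCocycles₁ π (trIhom π a ι₁) c) := by
  obtain ⟨φ, hφ, hcφ⟩ := hc
  refine ⟨ι₂.hom.toLinearMap ∘ₗ φ ∘ₗ a.hom.toLinearMap, fun r => ?_, fun g' r => ?_⟩
  · show S'.g.hom (ι₂.hom (φ (a.hom r))) = ι₃.hom (f''.hom (a.hom r))
    rw [hg, hφ]
  · rw [mapCocycles₁_trIhom_apply, hf, hcφ, map_sub]
    show _ = S'.X₂.ρ g' (ι₂.hom (φ (a.hom (R'.ρ g'⁻¹ r)))) - ι₂.hom (φ (a.hom r))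
    have h1 : a.hom (R'.ρ g'⁻¹ r) = R.ρ (π g')⁻¹ (a.hom r) := by
      rw [Rep.hom_comm_apply a g'⁻¹ r]
      show R.ρ (π g'⁻¹) _ = _
      rw [map_inv]
    have h2 : ∀ y : S.X₂.V, ι₂.hom (S.X₂.ρ (π g') y) = S'.X₂.ρ g' (ι₂.hom y) :=
      fun y => Rep.hom_comm_apply ι₂ g' y
    rw [h1, h2]

/-- **`tr` commutes with `∂`** (generic form). -/
theorem map_bdry (hS : S.ShortExact) (hS' : S'.ShortExact) [Module.Projective k R.V]
    [Module.Projective k R'.V]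
    (hf : ∀ x : S.X₁.V, S'.f.hom (ι₁.hom x) = ι₂.hom (S.f.hom x))
    (hg : ∀ x : S.X₂.V, S'.g.hom (ι₂.hom x) = ι₃.hom (S.g.hom x)) (f'' : R ⟶ S.X₃) :
    (groupCohomology.map π (trIhom π a ι₁) 1).hom (bdry hS R f'') =
      bdry hS' R' (trHom π a ι₃ f'') := by
  obtain ⟨c, hc⟩ := exists_isBdryCocycle hS f''
  rw [bdry_eq hS hc, bdry_eq hS' (hc.tr π a ι₁ ι₂ ι₃ hf hg)]
  have h := H1π_comp_map_apply π (trIhom π a ι₁) c
  exact h

end generic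

section std

variable {G G' : Type} [Group G] [Group G'] (π : G' →* G)
variable {N : Rep.{0} ℤ G} {N' : Rep.{0} ℤ G'} (ν : N' ⟶ Rep.res π N)
variable {S : ShortComplex (Rep.{0} ℤ G)} {S' : ShortComplex (Rep.{0} ℤ G')}
variable (ι₁ : Rep.res π S.X₁ ⟶ S'.X₁) (ι₂ : Rep.res π S.X₂ ⟶ S'.X₂)
  (ι₃ : Rep.res π S.X₃ ⟶ S'.X₃)

/-- **ALG10-∂**: `tr (∂ f'') = ∂' (tr f'')` for the standard presentations. -/
theorem trE2_stdBdry (hR : @Module.Projective ℤ _ (stdR N).V _ (stdR N).hV2)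
    (hR' : @Module.Projective ℤ _ (stdR N').V _ (stdR N').hV2)
    (hS : S.ShortExact) (hS' : S'.ShortExact)
    (hf : ∀ x : S.X₁.V, S'.f.hom (ι₁.hom x) = ι₂.hom (S.f.hom x))
    (hg : ∀ x : S.X₂.V, S'.g.hom (ι₂.hom x) = ι₃.hom (S.g.hom x)) (f'' : homA N S.X₃) :
    trE2 π ν ι₁ (stdBdry N hR hS f'') = stdBdry N' hR' hS' (trA π ν ι₃ f'') :=
  haveI := hR
  haveI := hR'
  map_bdry π (trR π ν) ι₁ ι₂ ι₃ hS hS' hf hg f''

end std

/-- **ALG10-∂**, Spec form. -/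
def ALG10BdrySpec : Prop :=
  ∀ (G G' : Type) [Group G] [Group G'] (π : G' →* G)
    (N : Rep.{0} ℤ G) (N' : Rep.{0} ℤ G') (ν : N' ⟶ Rep.res π N)
    (hR : @Module.Projective ℤ _ (stdR N).V _ (stdR N).hV2)
    (hR' : @Module.Projective ℤ _ (stdR N').V _ (stdR N').hV2)
    (S : ShortComplex (Rep.{0} ℤ G)) (S' : ShortComplex (Rep.{0} ℤ G'))
    (hS : S.ShortExact) (hS' : S'.ShortExact)
    (ι₁ : Rep.res π S.X₁ ⟶ S'.X₁) (ι₂ : Rep.res π S.X₂ ⟶ S'.X₂) (ι₃ : Rep.res π S.X₃ ⟶ S'.X₃),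
    (∀ x : S.X₁.V, S'.f.hom (ι₁.hom x) = ι₂.hom (S.f.hom x)) →
    (∀ x : S.X₂.V, S'.g.hom (ι₂.hom x) = ι₃.hom (S.g.hom x)) →
    ∀ f'' : homA N S.X₃,
      trE2 π ν ι₁ (stdBdry N hR hS f'') = stdBdry N' hR' hS' (trA π ν ι₃ f'')

theorem alg10Bdry : ALG10BdrySpec :=
  fun _ _ _ _ π _ _ ν hR hR' _ _ hS hS' ι₁ ι₂ ι₃ hf hg f'' =>
    trE2_stdBdry π ν ι₁ ι₂ ι₃ hR hR' hS hS' hf hg f''

end

end Fermat.Agent.S55.E1.H354
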