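/-
S55 engine E1 — block LIM, leaves LIM-SES and LIM1 (helper354).  NO sorry.

On the tower objects of `E1/Lim/Obj.lean` (helper474):

* `diag_injective`, `diagTot_injective` : `E(F) → J(F)` is injective (`S ≠ ∅`);
* `exists_diagTot_eq` : exactness at `J(F)` from GD4 (`KerDiag`), WITHOUT the leaf `LIM-E0`
  (Galois stability of `IsSUnit`): the conjugates of the unit produced by GD4 are again produced by
  GD4, by injectivity of the diagonal;
* `ses_shortExact` : `0 → E(F) → J(F) → C'(F) → 0` is short exact  (**LIM-SES**);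
* `lim1Bdry`, `lim1Equiv` : `∂ : A_F(C')/im A_F(J) ≃+ ker (𝔈²_F(E) → 𝔈²_F(J))`  (**LIM1**),
  with the explicit cocycle formula `lim1Bdry_eq`, `lim1Bdry_eq_zero_iff`, `mem_range_lim1Bdry`;
* `stdR_projective` : the hypothesis `hR` below holds for finite `N` (from ALG1);
* `ses_tr_f`, `ses_tr_g` : the transition maps `trS`, `trJtot`, `trC1` form a morphism of short
  exact sequences along `Level.proj`;
* `trE2_lim1Bdry` : `tr (∂ f'') = ∂' (tr f'')`  (**LIM1, compatibility with the transition maps**).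
-/
import Fermat.Agent.S55.E1.Lim.Obj
import Fermat.Agent.S55.E1.H354.Alg10Bdry
import Fermat.Agent.S55.E1.H304.Alg1

set_option autoImplicit false

open CategoryTheory CategoryTheory.Limits groupCohomology

namespace Fermat.Agent.S55.E1.H354

open Fermat.Agent.S55.Tow Fermat.Agent.S55.E1.Lim

noncomputable section

attribute [local instance 10000] Rep.hV2

variable {S : Finset Nat.Primes}

/-! ## Injectivity of the diagonal -/

theorem embQbar_injective (q : Nat.Primes) : Function.Injective (embQbar q) := by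
  intro x y h
  have h1 : (Units.map (padicEmbedding (q : ℕ)).toRingHom.toMonoidHom) (Additive.toMul x) =
      (Units.map (padicEmbedding (q : ℕ)).toRingHom.toMonoidHom) (Additive.toMul y) :=
    congrArg Additive.toMul h
  have h2 : Function.Injective (Units.map (padicEmbedding (q : ℕ)).toRingHom.toMonoidHom) :=
    Units.map_injective (padicEmbedding (q : ℕ)).toRingHom.injective
  exact Additive.toMul.injective (h2 h1)

theorem embFun_injective (L : Level S) (q : Nat.Primes) : Function.Injective (L.embFun q) := by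
  intro x y h
  apply L.unitsCoe_injective
  apply embQbar_injective q
  have := congrArg (L.locCoe q) h
  simpa using this

theorem diag_injective (L : Level S) (q : Nat.Primes) : Function.Injective (L.diag q).hom := by
  intro x y h
  apply embFun_injective L q
  have h1 := congrArg (fun z => L.Jeval q z 1) h
  simp only [Level.Jeval_diag, map_one] at h1
  exact h1

theorem diagTot_injective (L : Level S) (hS : S.Nonempty) :
    Function.Injective (diagTot L).hom := by
  obtain ⟨q, hq⟩ := hS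
  intro x y h
  apply sIncl_injective L
  apply diag_injective L q
  have h1 := congrArg (fun z => piTo z (⟨q, hq⟩ : S)) h
  simpa only [piTo_diagTot] using h1

/-! ## Exactness at `J(F)` -/

variable {D : TowerDatum S}

/-- GD4 ⇒ every element of `ker (J(F) → C(F))` comes from `E(F)`. -/
theorem exists_diagTot_eq (h4 : KerDiag D) (hS : S.Nonempty) (L : Level S) (x : (Jtot L).V)
    (hx : (jTot D L).hom x = 0) : ∃ e : (sUnits L).V, (diagTot L).hom e = x := by
  obtain ⟨q₀, hq₀⟩ := hS
  have key : ∀ y : (Jtot L).V, (jTot D L).hom y = 0 →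
      ∃ e : L.units.V, L.IsSUnit e ∧ ∀ q : S, piTo y q = (L.diag q.1).hom e := by
    intro y hy
    rw [jTot_apply] at hy
    exact (h4 L (fun q => piTo y q)).1 hy
  obtain ⟨e, -, he⟩ := key x hx
  have hmem : e ∈ sUnitsAdd L := by
    intro g
    have hgx : (jTot D L).hom ((Jtot L).ρ g x) = 0 := by
      rw [Rep.hom_comm_apply, hx, map_zero]
    obtain ⟨e', he'S, he'⟩ := key _ hgx
    have h2 : piTo ((Jtot L).ρ g x) (⟨q₀, hq₀⟩ : S) =
        (L.J q₀).ρ g (piTo x (⟨q₀, hq₀⟩ : S)) := piTo_ρ g x _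
    have h1 : (L.diag q₀).hom (L.units.ρ g e) = (L.diag q₀).hom e' := by
      rw [← he' ⟨q₀, hq₀⟩, h2, he ⟨q₀, hq₀⟩, Rep.hom_comm_apply]
    rw [diag_injective L q₀ h1]
    exact he'S
  refine ⟨subMk (A := L.units) (W := sUnitsAdd L) (hW := sUnitsAdd_stable L) e hmem, ?_⟩
  apply piRep_ext
  intro q
  rw [piTo_diagTot, he q]
  rfl

/-- Concrete criterion for short exactness in `Rep k G`. -/
theorem shortExact_of_elementwise {k G : Type} [CommRing k] [Group G]
    (X : ShortComplex (Rep.{0} k G)) (h1 : Function.Injective X.f.hom)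
    (h2 : ∀ x : X.X₂.V, X.g.hom x = 0 → ∃ y : X.X₁.V, X.f.hom y = x)
    (h3 : Function.Surjective X.g.hom) : X.ShortExact where
  exact := by
    rw [← ShortComplex.exact_map_iff_of_faithful X (forget₂ (Rep.{0} k G) (ModuleCat.{0} k)),
      ShortComplex.moduleCat_exact_iff]
    exact h2
  mono_f := (Rep.mono_iff_injective _).2 h1
  epi_g := (Rep.epi_iff_surjective _).2 h3

/-- **LIM-SES**: `0 → E(F) → J(F) → C'(F) → 0` is short exact. -/
theorem ses_shortExact (h4 : KerDiag D) (hS : S.Nonempty) (L : Level S) :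
    (ses h4 L).ShortExact := by
  refine shortExact_of_elementwise (ses h4 L) (diagTot_injective L hS) (fun x hx => ?_)
    (jC1_surjective D L)
  have hx' : (jC1 D L).hom x = 0 := hx
  have hx'' : (jTot D L).hom x = 0 := by
    have := congrArg (inclC1 D L).hom hx'
    rw [map_zero] at this
    exact this
  exact exists_diagTot_eq h4 hS L x hx''

/-! ## Projectivity of `R` (from ALG1) -/

/-- For finite `G` and finite `N` the relation module `R` is `ℤ`-projective (ALG1). -/
theorem stdR_projective {G : Type} [Group G] [Finite G] (N : Rep.{0} ℤ G) (hN : Finite N.V) :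
    @Module.Projective ℤ _ (stdR N).V _ (stdR N).hV2 :=
  haveI := (H304.alg1 G N hN).1
  Module.Projective.of_free

/-! ## LIM1: the boundary isomorphism `T'_F ≅ K_F` -/

section Lim1

variable (h4 : KerDiag D) (hS : S.Nonempty) (L : Level S) (N : Rep.{0} ℤ L.Gal)
  (hR : @Module.Projective ℤ _ (stdR N).V _ (stdR N).hV2)

/-- **LIM1**: the boundary map `∂ : A_F(C') → 𝔈²_F(E)` of the sequence `E(F) → J(F) → C'(F)`. -/
def lim1Bdry : homA N (C1 D L) →+ E2 N (sUnits L) :=
  stdBdry N hR (ses_shortExact h4 hS L)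

/-- Explicit formula: `∂ f''` is the class of `g ↦ diag⁻¹ ∘ (g • φ - φ)` for any additive lift
`φ : R → J(F)` of `f'' : R → C'(F)`. -/
theorem lim1Bdry_eq {f'' : homA N (C1 D L)} {c : cocycles₁ ((Rep.ihom (stdR N)).obj (sUnits L))}
    (φ : (stdR N).V →ₗ[ℤ] (Jtot L).V) (hφ : ∀ r, (jC1 D L).hom (φ r) = f''.hom r)
    (hc : ∀ (g : L.Gal) (r : (stdR N).V),
      (diagTot L).hom (ihomLin (c g) r) = (Jtot L).ρ g (φ ((stdR N).ρ g⁻¹ r)) - φ r) :
    lim1Bdry h4 hS L N hR f'' = H1π _ c :=
  stdBdry_eq N hR (ses_shortExact h4 hS L) (S := ses h4 L) (f'' := f'') (c := c) ⟨φ, hφ, hc⟩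

/-- `∂ f'' = 0` iff `f''` lifts to `A_F(J)`. -/
theorem lim1Bdry_eq_zero_iff (f'' : homA N (C1 D L)) :
    lim1Bdry h4 hS L N hR f'' = 0 ↔ ∃ f : homA N (Jtot L), f ≫ jC1 D L = f'' :=
  stdBdry_eq_zero_iff N hR (ses_shortExact h4 hS L) f''

/-- `ker ∂ = im (A_F(J) → A_F(C'))`. -/
theorem ker_lim1Bdry :
    (lim1Bdry h4 hS L N hR).ker = (Preadditive.rightComp (stdR N) (jC1 D L)).range :=
  haveI := hR
  ker_bdry (ses_shortExact h4 hS L)

/-- `y ∈ 𝔈²_F(E)` dies in `𝔈²_F(J)` iff it is a boundary. -/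
theorem E2_diagTot_eq_zero_iff (y : E2 N (sUnits L)) :
    (ihomH1Map (stdR N) (diagTot L)).hom y = 0 ↔ ∃ f'' : homA N (C1 D L),
      lim1Bdry h4 hS L N hR f'' = y :=
  E2map_eq_zero_iff N hR (ses_shortExact h4 hS L) y

/-- `im ∂ = K_F = ker (𝔈²_F(E) → 𝔈²_F(J))`. -/
theorem range_lim1Bdry :
    (lim1Bdry h4 hS L N hR).range = (ihomH1Map (stdR N) (diagTot L)).hom.toAddMonoidHom.ker :=
  haveI := hR
  range_bdry (ses_shortExact h4 hS L)

/-- `∂` kills the maps which extend to `P`. -/
theorem lim1Bdry_resBA (h'' : homB N (C1 D L)) :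
    lim1Bdry h4 hS L N hR (resBA N (C1 D L) h'') = 0 :=
  stdBdry_resBA N hR (ses_shortExact h4 hS L) h''

/-- **LIM1**: `T'_F = A_F(C') / im A_F(J) ≃+ K_F = ker (𝔈²_F(E) → 𝔈²_F(J))`. -/
def lim1Equiv : (homA N (C1 D L) ⧸ (Preadditive.rightComp (stdR N) (jC1 D L)).range) ≃+
    (ihomH1Map (stdR N) (diagTot L)).hom.toAddMonoidHom.ker :=
  stdBdryEquiv N hR (ses_shortExact h4 hS L)

theorem lim1Equiv_mk (f'' : homA N (C1 D L)) :
    ((lim1Equiv h4 hS L N hR (QuotientAddGroup.mk f'') :
      (ihomH1Map (stdR N) (diagTot L)).hom.toAddMonoidHom.ker) : E2 N (sUnits L)) =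
      lim1Bdry h4 hS L N hR f'' := rfl

end Lim1

/-! ## LIM1: compatibility with the transition maps -/

section Tr

variable {L L' : Level S} (h : L ≤ L')

/-- The diagonal maps are compatible with the transition maps. -/
theorem trJ_diag_apply (q : Nat.Primes) (x : L.units.V) :
    (Level.trJ h q).hom ((L.diag q).hom x) = (L'.diag q).hom ((Level.trUnits h).hom x) := by
  apply L'.J_ext q
  intro g
  induction g using QuotientGroup.induction_on with
  | H g => rfl

/-- `trS`, `trJtot` commute with the diagonals. -/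
theorem diagTot_trS (e : (sUnits L).V) :
    (diagTot L').hom ((trS h).hom e) = (trJtot h).hom ((diagTot L).hom e) := by
  apply piRep_ext
  intro q
  rw [piTo_diagTot, piTo_trJtot, piTo_diagTot, sIncl_trS, trJ_diag_apply]

/-- The left square of the morphism of short exact sequences `ses L → ses L'`. -/
theorem ses_tr_f (h4 : KerDiag D) (e : (ses h4 L).X₁.V) :
    (ses h4 L').f.hom ((trS h).hom e) = (trJtot h).hom ((ses h4 L).f.hom e) :=
  diagTot_trS h e

/-- The right square of the morphism of short exact sequences `ses L → ses L'`. -/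
theorem ses_tr_g (h4 : KerDiag D) (h7 : TrCompat D) (x : (ses h4 L).X₂.V) :
    (ses h4 L').g.hom ((trJtot h).hom x) = (trC1 h7 h).hom ((ses h4 L).g.hom x) :=
  (trC1_jC1 h7 h x).symm

/-- **LIM1, compatibility with the transition maps**: `tr (∂ f'') = ∂' (tr f'')`. -/
theorem trE2_lim1Bdry (h4 : KerDiag D) (h7 : TrCompat D) (hS : S.Nonempty)
    {N : Rep.{0} ℤ L.Gal} {N' : Rep.{0} ℤ L'.Gal} (ν : N' ⟶ Rep.res (Level.proj h) N)
    (hR : @Module.Projective ℤ _ (stdR N).V _ (stdR N).hV2)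
    (hR' : @Module.Projective ℤ _ (stdR N').V _ (stdR N').hV2) (f'' : homA N (C1 D L)) :
    trE2 (Level.proj h) ν (trS h) (lim1Bdry h4 hS L N hR f'') =
      lim1Bdry h4 hS L' N' hR' (trA (Level.proj h) ν (trC1 h7 h) f'') :=
  trE2_stdBdry (Level.proj h) ν (S := ses h4 L) (S' := ses h4 L') (trS h) (trJtot h) (trC1 h7 h)
    hR hR' (ses_shortExact h4 hS L) (ses_shortExact h4 hS L') (ses_tr_f h h4) (ses_tr_g h h4 h7) f''

/-- The transition map `tr : A_F(C') → A_{F'}(C')` preserves `im A(J)`. -/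
theorem trA_mem_range (h7 : TrCompat D) {N : Rep.{0} ℤ L.Gal} {N' : Rep.{0} ℤ L'.Gal}
    (ν : N' ⟶ Rep.res (Level.proj h) N) (f'' : homA N (C1 D L))
    (hf : f'' ∈ (Preadditive.rightComp (stdR N) (jC1 D L)).range) :
    trA (Level.proj h) ν (trC1 h7 h) f'' ∈ (Preadditive.rightComp (stdR N') (jC1 D L')).range := by
  obtain ⟨f, rfl⟩ := hf
  refine ⟨trA (Level.proj h) ν (trJtot h) f, ?_⟩
  apply Rep.hom_ext
  apply DFunLike.ext
  intro r
  exact (trC1_jC1 h7 h _).symm

/-- The transition map `tr : 𝔈²_F(E) → 𝔈²_{F'}(E)` preserves `K = ker (𝔈²(E) → 𝔈²(J))`. -/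
theorem trE2_mem_ker (h4 : KerDiag D) (h7 : TrCompat D) (hS : S.Nonempty)
    {N : Rep.{0} ℤ L.Gal} {N' : Rep.{0} ℤ L'.Gal} (ν : N' ⟶ Rep.res (Level.proj h) N)
    (hR : @Module.Projective ℤ _ (stdR N).V _ (stdR N).hV2)
    (hR' : @Module.Projective ℤ _ (stdR N').V _ (stdR N').hV2) (y : E2 N (sUnits L))
    (hy : (ihomH1Map (stdR N) (diagTot L)).hom y = 0) :
    (ihomH1Map (stdR N') (diagTot L')).hom (trE2 (Level.proj h) ν (trS h) y) = 0 := by
  obtain ⟨f'', rfl⟩ := (E2_diagTot_eq_zero_iff h4 hS L N hR y).1 hy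
  rw [trE2_lim1Bdry h h4 h7 hS ν hR hR']
  exact (E2_diagTot_eq_zero_iff h4 hS L' N' hR' _).2 ⟨_, rfl⟩

end Tr

end

end Fermat.Agent.S55.E1.H354
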