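/-
S55 engine E1: **E2-Shapiro** (input of LIM5(i)), helper354.

For `φ : D →* G` injective, `R : Rep k G`, `X : Rep k D`:
`Hom_k(R, Coind_φ X) ≅ Coind_φ Hom_k(R|_D, X)` as `G`-modules (`thetaIso`), hence
`Hⁿ(G, Hom_k(R, Coind_φ X)) → Hⁿ(D, Hom_k(R|_D, X))`, `c ↦ (d ↦ ev₁ ∘ c(φ d))`, is bijective.
For `n = 1`, `R = stdR N`: `𝔈²_G(N, Coind X) → H¹(D, Hom_ℤ(R|_D, X))` is bijective.
-/
import Fermat.Agent.S55.E1.SpecAlg2
import Fermat.Agent.S55.E1.Tr.Defs
import Fermat.Agent.S55.E1.H354.Alg3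

set_option autoImplicit false

open CategoryTheory CategoryTheory.Limits groupCohomology

namespace Fermat.Agent.S55.E1.H354

noncomputable section

section generic

variable {k G D : Type} [CommRing k] [Group G] [Group D] (φ : D →* G)
variable (R : Rep.{0} k G) (X : Rep.{0} k D)

/-- Evaluation at `g`: `Coind_φ X → X` (linear). -/
def coindEval (g : G) : (Rep.coind φ X).V →ₗ[k] X.V :=
  LinearMap.proj g ∘ₗ (Representation.coindV φ X.ρ).subtype

lemma coindEval_apply (g : G) (F : (Rep.coind φ X).V) : coindEval φ X g F = F.1 g := rfl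

lemma coindEval_mul (d : D) (g : G) (F : (Rep.coind φ X).V) :
    coindEval φ X (φ d * g) F = X.ρ d (coindEval φ X g F) := F.2 d g

lemma coindEval_ρ (g γ : G) (F : (Rep.coind φ X).V) :
    coindEval φ X g ((Rep.coind φ X).ρ γ F) = coindEval φ X (g * γ) F := rfl

lemma coind_ext {F F' : (Rep.coind φ X).V} (h : ∀ g, coindEval φ X g F = coindEval φ X g F') :
    F = F' := Subtype.ext (funext h)

/-- `Θ(ψ)(g) = ev_g ∘ ψ ∘ g⁻¹ ∈ Hom_k(R, X)`. -/
def thetaFun (ψ : R.V →ₗ[k] (Rep.coind φ X).V) (g : G) : R.V →ₗ[k] X.V :=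
  coindEval φ X g ∘ₗ ψ ∘ₗ R.ρ g⁻¹

lemma thetaFun_apply (ψ : R.V →ₗ[k] (Rep.coind φ X).V) (g : G) (r : R.V) :
    thetaFun φ R X ψ g r = coindEval φ X g (ψ (R.ρ g⁻¹ r)) := rfl

lemma thetaFun_mem (ψ : R.V →ₗ[k] (Rep.coind φ X).V) :
    (fun g => thetaFun φ R X ψ g) ∈
      Representation.coindV φ ((Rep.ihom (Rep.res φ R)).obj X).ρ := by
  intro d g
  apply LinearMap.ext
  intro r
  show thetaFun φ R X ψ (φ d * g) r = X.ρ d (thetaFun φ R X ψ g (R.ρ (φ d⁻¹) r))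
  rw [thetaFun_apply, thetaFun_apply, coindEval_mul, mul_inv_rev, map_mul, ← map_inv φ d]
  rfl

/-- `Θ : Hom_k(R, Coind_φ X) → Coind_φ Hom_k(R|_D, X)` as a linear map. -/
def thetaLin : (R.V →ₗ[k] (Rep.coind φ X).V) →ₗ[k]
    (Rep.coind φ ((Rep.ihom (Rep.res φ R)).obj X)).V where
  toFun ψ := ⟨fun g => thetaFun φ R X ψ g, thetaFun_mem φ R X ψ⟩
  map_add' ψ ψ' := by
    apply Subtype.ext
    funext g
    apply LinearMap.ext
    intro r
    rfl
  map_smul' c ψ := by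
    apply Subtype.ext
    funext g
    apply LinearMap.ext
    intro r
    rfl

lemma thetaLin_apply (ψ : R.V →ₗ[k] (Rep.coind φ X).V) (g : G) (r : R.V) :
    ihomLin ((thetaLin φ R X ψ).1 g) r = coindEval φ X g (ψ (R.ρ g⁻¹ r)) := rfl

/-- `Θ` as a morphism of `G`-modules. -/
def thetaHom : (Rep.ihom R).obj (Rep.coind φ X) ⟶
    Rep.coind φ ((Rep.ihom (Rep.res φ R)).obj X) :=
  Rep.ofHom (LinearMap.intertwiningMap_of_isIntertwiningMap _ _ (thetaLin φ R X) (by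
    intro γ ψ
    apply Subtype.ext
    funext g
    apply LinearMap.ext
    intro r
    show coindEval φ X g ((Rep.coind φ X).ρ γ (ihomLin ψ (R.ρ γ⁻¹ (R.ρ g⁻¹ r)))) =
      coindEval φ X (g * γ) (ihomLin ψ (R.ρ (g * γ)⁻¹ r))
    rw [coindEval_ρ, mul_inv_rev, map_mul]
    rfl))

lemma thetaHom_hom_apply (ψ : ((Rep.ihom R).obj (Rep.coind φ X)).V) :
    (thetaHom φ R X).hom ψ = thetaLin φ R X ψ := rfl

theorem thetaHom_injective : Function.Injective (thetaHom φ R X).hom := by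
  intro ψ ψ' h
  apply LinearMap.ext
  intro r
  apply coind_ext
  intro g
  have h1 : coindEval φ X g (ihomLin ψ (R.ρ g⁻¹ (R.ρ g r))) =
      coindEval φ X g (ihomLin ψ' (R.ρ g⁻¹ (R.ρ g r))) :=
    congrArg (fun F : (Rep.coind φ ((Rep.ihom (Rep.res φ R)).obj X)).V =>
      (show R.V →ₗ[k] X.V from F.1 g) (R.ρ g r)) h
  rw [← Module.End.mul_apply, ← map_mul, inv_mul_cancel, map_one, Module.End.one_apply] at h1
  exact h1

theorem thetaHom_surjective : Function.Surjective (thetaHom φ R X).hom := by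
  intro F
  have hF : ∀ (d : D) (g : G) (r : R.V),
      ihomLin (F.1 (φ d * g)) r = X.ρ d (ihomLin (F.1 g) (R.ρ (φ d⁻¹) r)) := by
    intro d g r
    have := F.2 d g
    exact congrArg (fun x : ((Rep.ihom (Rep.res φ R)).obj X).V =>
      (show R.V →ₗ[k] X.V from x) r) this
  let ψ : R.V →ₗ[k] (Rep.coind φ X).V :=
    { toFun := fun r => ⟨fun g => ihomLin (F.1 g) (R.ρ g r), by
        intro d g
        show ihomLin (F.1 (φ d * g)) (R.ρ (φ d * g) r) = X.ρ d (ihomLin (F.1 g) (R.ρ g r))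
        rw [hF, ← Module.End.mul_apply, ← map_mul, ← mul_assoc, ← map_mul, inv_mul_cancel,
          map_one, one_mul]⟩
      map_add' := by
        intro r r'
        apply Subtype.ext
        funext g
        show ihomLin (F.1 g) (R.ρ g (r + r')) = ihomLin (F.1 g) (R.ρ g r) +
          ihomLin (F.1 g) (R.ρ g r')
        rw [map_add, map_add]
      map_smul' := by
        intro c r
        apply Subtype.ext
        funext g
        show ihomLin (F.1 g) (R.ρ g (c • r)) = c • ihomLin (F.1 g) (R.ρ g r)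
        rw [map_smul, map_smul] }
  refine ⟨ψ, ?_⟩
  apply Subtype.ext
  funext g
  apply LinearMap.ext
  intro r
  show ihomLin (F.1 g) (R.ρ g (R.ρ g⁻¹ r)) = ihomLin (F.1 g) r
  rw [← Module.End.mul_apply, ← map_mul, mul_inv_cancel, map_one, Module.End.one_apply]


instance thetaHom_isIso : IsIso (thetaHom φ R X) :=
  (ConcreteCategory.isIso_iff_bijective _).2
    ⟨thetaHom_injective φ R X, thetaHom_surjective φ R X⟩

/-- `Hom_k(R, Coind_φ X) ≅ Coind_φ Hom_k(R|_D, X)` as `G`-modules. -/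
def thetaIso : (Rep.ihom R).obj (Rep.coind φ X) ≅
    Rep.coind φ ((Rep.ihom (Rep.res φ R)).obj X) :=
  asIso (thetaHom φ R X)

/-- The morphism of `D`-modules `Hom_k(R, Coind_φ X)|_D → Hom_k(R|_D, X)`, `ψ ↦ ev₁ ∘ ψ`. -/
def ihomEv : Rep.res φ ((Rep.ihom R).obj (Rep.coind φ X)) ⟶ (Rep.ihom (Rep.res φ R)).obj X :=
  trIhom φ (𝟙 (Rep.res φ R)) (H173.ev1Hom φ X)

lemma ihomEv_hom_apply (ψ : ((Rep.ihom R).obj (Rep.coind φ X)).V) (r : R.V) :
    ihomLin ((ihomEv φ R X).hom ψ) r = coindEval φ X 1 (ihomLin ψ r) := rfl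

theorem ihomEv_eq : ihomEv φ R X =
    (Rep.resFunctor φ).map (thetaHom φ R X) ≫
      H173.ev1Hom φ ((Rep.ihom (Rep.res φ R)).obj X) := by
  apply Rep.hom_ext
  apply DFunLike.ext
  intro ψ
  apply LinearMap.ext
  intro r
  show coindEval φ X 1 (ihomLin ψ r) = coindEval φ X 1 (ihomLin ψ (R.ρ 1⁻¹ r))
  rw [inv_one, map_one, Module.End.one_apply]

/-- **Shapiro for `Hom`**: `Hⁿ(G, Hom_k(R, Coind_φ X)) → Hⁿ(D, Hom_k(R|_D, X))`,
on cocycles `c ↦ (d ↦ ev₁ ∘ c(φ d))`. -/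
def ihomShapiro (n : ℕ) : groupCohomology ((Rep.ihom R).obj (Rep.coind φ X)) n ⟶
    groupCohomology ((Rep.ihom (Rep.res φ R)).obj X) n :=
  groupCohomology.map φ (ihomEv φ R X) n

theorem ihomShapiro_eq (n : ℕ) : ihomShapiro φ R X n =
    groupCohomology.map (MonoidHom.id G) (thetaHom φ R X) n ≫
      H173.shapiroHom φ ((Rep.ihom (Rep.res φ R)).obj X) n := by
  rw [ihomShapiro, ihomEv_eq, ← groupCohomology.map_comp]
  rfl

variable {φ}

theorem ihomShapiro_bijective (hφ : Function.Injective φ) (n : ℕ) :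
    Function.Bijective (ihomShapiro φ R X n).hom := by
  rw [ihomShapiro_eq]
  have h0 : IsIso ((groupCohomology.functor k G n).map (thetaHom φ R X)) := inferInstance
  have h1 : Function.Bijective ((groupCohomology.functor k G n).map (thetaHom φ R X)).hom :=
    (ConcreteCategory.isIso_iff_bijective _).1 h0
  have h2 := H173.shapiroHom_bijective hφ n ((Rep.ihom (Rep.res φ R)).obj X)
  exact h2.comp h1

/-- Naturality: for a `G`-map `u : Y ⟶ Coind_φ X`, Shapiro after `u_*` is the map induced by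
`φ` and `ψ ↦ (ev₁ ∘ u) ∘ ψ`. -/
theorem ihomShapiro_comp_map {Y : Rep.{0} k G} (u : Y ⟶ Rep.coind φ X) (n : ℕ) :
    groupCohomology.map (MonoidHom.id G) ((Rep.ihom R).map u) n ≫ ihomShapiro φ R X n =
      groupCohomology.map φ (trIhom φ (𝟙 (Rep.res φ R))
        ((Rep.resFunctor φ).map u ≫ H173.ev1Hom φ X)) n := by
  rw [ihomShapiro, ← groupCohomology.map_comp]
  rfl

end generic

/-! ### The case of the standard presentation (`k = ℤ`) -/

section std

variable {G D : Type} [Group G] [Group D]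

/-- **E2-Shapiro**: `𝔈²_G(N, Coind_φ X) → H¹(D, Hom_ℤ(R|_D, X))`, `c ↦ (d ↦ ev₁ ∘ c(φ d))`. -/
def E2sh (φ : D →* G) (N : Rep.{0} ℤ G) (X : Rep.{0} ℤ D) :
    E2 N (Rep.coind φ X) →ₗ[ℤ]
      groupCohomology ((Rep.ihom (Rep.res φ (stdR N))).obj X) 1 :=
  (ihomShapiro φ (stdR N) X 1).hom

theorem E2sh_eq (φ : D →* G) (N : Rep.{0} ℤ G) (X : Rep.{0} ℤ D) :
    E2sh φ N X =
      (groupCohomology.map φ (trIhom φ (𝟙 (Rep.res φ (stdR N))) (H173.ev1Hom φ X)) 1).hom :=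
  rfl

theorem E2sh_bijective {φ : D →* G} (hφ : Function.Injective φ) (N : Rep.{0} ℤ G)
    (X : Rep.{0} ℤ D) : Function.Bijective (E2sh φ N X) :=
  ihomShapiro_bijective (stdR N) X hφ 1

theorem E2sh_injective {φ : D →* G} (hφ : Function.Injective φ) (N : Rep.{0} ℤ G)
    (X : Rep.{0} ℤ D) : Function.Injective (E2sh φ N X) :=
  (E2sh_bijective hφ N X).1

/-- Naturality of E2-Shapiro in `u : Y ⟶ Coind_φ X`. -/
theorem E2sh_coeffMap (φ : D →* G) (N : Rep.{0} ℤ G) {Y : Rep.{0} ℤ G} {X : Rep.{0} ℤ D}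
    (u : Y ⟶ Rep.coind φ X) (y : E2 N Y) :
    E2sh φ N X ((T.coeffMap ((Rep.ihom (stdR N)).map u) 1).hom y) =
      (groupCohomology.map φ (trIhom φ (𝟙 (Rep.res φ (stdR N))) (flat φ u)) 1).hom y := by
  have h := ihomShapiro_comp_map (stdR N) X u 1 (φ := φ)
  exact congrArg (fun f => f.hom y) h

/-- `y ∈ 𝔈²_G(N, Y)` dies in `𝔈²_G(N, Coind_φ X)` iff its local image in
`H¹(D, Hom_ℤ(R|_D, X))` vanishes. -/
theorem E2_coeffMap_eq_zero_iff {φ : D →* G} (hφ : Function.Injective φ) (N : Rep.{0} ℤ G)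
    {Y : Rep.{0} ℤ G} {X : Rep.{0} ℤ D} (u : Y ⟶ Rep.coind φ X) (y : E2 N Y) :
    (T.coeffMap ((Rep.ihom (stdR N)).map u) 1).hom y = 0 ↔
      (groupCohomology.map φ (trIhom φ (𝟙 (Rep.res φ (stdR N))) (flat φ u)) 1).hom y = 0 := by
  rw [← E2sh_coeffMap]
  constructor
  · intro h
    rw [h, map_zero]
  · intro h
    exact E2sh_injective hφ N X (h.trans (map_zero _).symm)

end std

/-- **E2-Shapiro**, Spec form. -/
def E2ShapiroSpec : Prop :=
  ∀ (G D : Type) [Group G] [Group D] (φ : D →* G), Function.Injective φ →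
    ∀ (N : Rep.{0} ℤ G) (X : Rep.{0} ℤ D),
      Function.Bijective
        (groupCohomology.map φ (trIhom φ (𝟙 (Rep.res φ (stdR N))) (H173.ev1Hom φ X)) 1).hom

theorem e2Shapiro : E2ShapiroSpec := fun _ _ _ _ _ hφ N X => E2sh_bijective hφ N X

end

end Fermat.Agent.S55.E1.H354
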